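/-
S56 / ORD, leaf MAT-NIL.  Linear algebra of the nilpotent matrix `Nmat e : v ↦ det(e, v) e`.
Mathlib only (plus `Ord/Defs`).
-/
import Fermat.Agent.S56.Ord.Defs

set_option autoImplicit false

namespace Fermat.Agent.S56.Ord

open Fermat.Agent.S53 (M2)

variable {k : Type} [Field k]

theorem Nmat_mulVec (e v : Fin 2 → k) :
    (Nmat e).mulVec v = (e 0 * v 1 - e 1 * v 0) • e := by
  ext i
  fin_cases i <;> simp [Nmat, Matrix.mulVec, dotProduct, Fin.sum_univ_two] <;> ring

theorem trace_Nmat (e : Fin 2 → k) : (Nmat e).trace = 0 := by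
  simp [Nmat, Matrix.trace_fin_two]

theorem Nmat_ne_zero {e : Fin 2 → k} (he : e ≠ 0) : Nmat e ≠ 0 := by
  intro h
  apply he
  have h01 : e 0 * e 0 = 0 := by
    have := congrFun (congrFun h 0) 1
    simpa [Nmat] using this
  have h10 : e 1 * e 1 = 0 := by
    have := congrFun (congrFun h 1) 0
    simpa [Nmat] using this
  ext i
  fin_cases i
  · exact mul_self_eq_zero.1 h01
  · exact mul_self_eq_zero.1 h10

theorem Nmat_smul (c : k) (e : Fin 2 → k) : Nmat (c • e) = (c * c) • Nmat e := by
  ext i j
  fin_cases i <;> fin_cases j <;> simp [Nmat] <;> ring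

/-- A matrix killing `e` with image in `k e` is a multiple of `Nmat e`. -/
theorem exists_eq_smul_Nmat {e : Fin 2 → k} (he : e ≠ 0) (m : M2 k) (h0 : m.mulVec e = 0)
    (h1 : ∀ v : Fin 2 → k, ∃ t : k, m.mulVec v = t • e) : ∃ t : k, m = t • Nmat e := by
  obtain ⟨t0, ht0⟩ := h1 ![1, 0]
  obtain ⟨t1, ht1⟩ := h1 ![0, 1]
  have a00 : m 0 0 = t0 * e 0 := by
    have := congrFun ht0 0
    simpa [Matrix.mulVec, dotProduct, Fin.sum_univ_two] using this
  have a10 : m 1 0 = t0 * e 1 := by
    have := congrFun ht0 1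
    simpa [Matrix.mulVec, dotProduct, Fin.sum_univ_two] using this
  have a01 : m 0 1 = t1 * e 0 := by
    have := congrFun ht1 0
    simpa [Matrix.mulVec, dotProduct, Fin.sum_univ_two] using this
  have a11 : m 1 1 = t1 * e 1 := by
    have := congrFun ht1 1
    simpa [Matrix.mulVec, dotProduct, Fin.sum_univ_two] using this
  have k0 : e 0 * (t0 * e 0 + t1 * e 1) = 0 := by
    have := congrFun h0 0
    simp [Matrix.mulVec, dotProduct, Fin.sum_univ_two] at this
    rw [a00, a01] at this
    linear_combination this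
  have k1 : e 1 * (t0 * e 0 + t1 * e 1) = 0 := by
    have := congrFun h0 1
    simp [Matrix.mulVec, dotProduct, Fin.sum_univ_two] at this
    rw [a10, a11] at this
    linear_combination this
  have key : t0 * e 0 + t1 * e 1 = 0 := by
    by_contra hne
    apply he
    ext i
    fin_cases i
    · exact (mul_eq_zero.1 k0).resolve_right hne
    · exact (mul_eq_zero.1 k1).resolve_right hne
  -- `(t0, t1) = t (-e 1, e 0)`
  obtain ⟨t, h2, h3⟩ : ∃ t : k, t0 = -(t * e 1) ∧ t1 = t * e 0 := by
    by_cases hx : e 0 = 0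
    · have hy : e 1 ≠ 0 := by
        intro hy
        apply he
        ext i
        fin_cases i
        · exact hx
        · exact hy
      refine ⟨-(t0 / e 1), by field_simp, ?_⟩
      rw [hx, mul_zero, zero_add] at key
      rw [hx, mul_zero]
      exact (mul_eq_zero.1 key).resolve_right hy
    · refine ⟨t1 / e 0, ?_, by field_simp⟩
      field_simp
      linear_combination key
  refine ⟨t, ?_⟩
  ext i j
  fin_cases i <;> fin_cases j <;> simp [Nmat, a00, a01, a10, a11, h2, h3] <;> ring

end Fermat.Agent.S56.Ord
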