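/-
S56 / ORD, leaf MAT-CONJ.  Conjugation by a matrix preserving the flag `0 ⊂ k e ⊂ k²`:
it multiplies `Nmat e` by `x / z`, and fixes modulo `Nmat e` the semisimple element `H`
(`H e = e`, `H ≡ -1` modulo `e`).
-/
import Fermat.Agent.S56.Ord.Mat.Nil

set_option autoImplicit false

namespace Fermat.Agent.S56.Ord

open Fermat.Agent.S53 (M2)

variable {k : Type} [Field k]

private theorem Conj_ext {M N : M2 k} (h : ∀ v : Fin 2 → k, M.mulVec v = N.mulVec v) : M = N :=
  Matrix.ext_of_mulVec_single fun _ => h _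

private theorem Conj_mulVec (g N g' : M2 k) (v : Fin 2 → k) :
    (g * N * g').mulVec v = g.mulVec (N.mulVec (g'.mulVec v)) := by
  rw [← Matrix.mulVec_mulVec, ← Matrix.mulVec_mulVec]

private theorem Conj_cancel {g g' : M2 k} (hg : g * g' = 1) (v : Fin 2 → k) :
    g.mulVec (g'.mulVec v) = v := by
  rw [Matrix.mulVec_mulVec, hg, Matrix.one_mulVec]

/-- `g N g⁻¹ = (x z) N` when `z² = 1`. -/
theorem conj_Nmat {g g' : M2 k} (hg : g * g' = 1) {e : Fin 2 → k} {x z : k} (hz : z * z = 1)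
    (h : IsFlag g e x z) : g * Nmat e * g' = (x * z) • Nmat e := by
  apply Conj_ext
  intro v
  obtain ⟨t, ht⟩ := h.quot (g'.mulVec v)
  rw [Conj_cancel hg] at ht
  have c0 : v 0 - z * (g'.mulVec v) 0 = t * e 0 := by
    simpa using congrFun ht 0
  have c1 : v 1 - z * (g'.mulVec v) 1 = t * e 1 := by
    simpa using congrFun ht 1
  have key : e 0 * (g'.mulVec v) 1 - e 1 * (g'.mulVec v) 0 = z * (e 0 * v 1 - e 1 * v 0) := by
    linear_combination (-(z * e 0)) * c1 + (z * e 1) * c0 -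
      (e 0 * (g'.mulVec v) 1 - e 1 * (g'.mulVec v) 0) * hz
  rw [Conj_mulVec, Nmat_mulVec, Matrix.mulVec_smul, h.line, Matrix.smul_mulVec, Nmat_mulVec, key,
    smul_smul, smul_smul]
  congr 1
  ring

/-- The element `H`. -/
theorem exists_Hmat {e : Fin 2 → k} (he : e ≠ 0) :
    ∃ H : M2 k, H.trace = 0 ∧ H.mulVec e = e ∧ ∀ v : Fin 2 → k, ∃ t : k, H.mulVec v + v = t • e := by
  obtain ⟨a, b, hab⟩ : ∃ a b : k, a * e 0 + b * e 1 = 1 := by
    by_cases h0 : e 0 = 0
    · have h1 : e 1 ≠ 0 := by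
        intro h1
        apply he
        ext i
        fin_cases i
        · exact h0
        · exact h1
      exact ⟨0, (e 1)⁻¹, by rw [zero_mul, zero_add, inv_mul_cancel₀ h1]⟩
    · exact ⟨(e 0)⁻¹, 0, by rw [zero_mul, add_zero, inv_mul_cancel₀ h0]⟩
  refine ⟨!![-1 + 2 * e 0 * a, 2 * e 0 * b; 2 * e 1 * a, -1 + 2 * e 1 * b], ?_, ?_, fun v => ?_⟩
  · rw [Matrix.trace_fin_two]
    simp
    linear_combination 2 * hab
  · ext i
    fin_cases i
    · simp [Matrix.mulVec, dotProduct, Fin.sum_univ_two]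
      linear_combination (2 * e 0) * hab
    · simp [Matrix.mulVec, dotProduct, Fin.sum_univ_two]
      linear_combination (2 * e 1) * hab
  · refine ⟨2 * (a * v 0 + b * v 1), ?_⟩
    ext i
    fin_cases i
    · simp [dotProduct, Fin.sum_univ_two]
      ring
    · simp [dotProduct, Fin.sum_univ_two]
      ring

/-- `g H g⁻¹ - H ∈ k N`. -/
theorem conj_Hmat_sub {g g' : M2 k} (hg : g * g' = 1) {e : Fin 2 → k} (he : e ≠ 0) {x z : k}
    (h : IsFlag g e x z) {H : M2 k} (h1 : H.mulVec e = e)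
    (h2 : ∀ v : Fin 2 → k, ∃ t : k, H.mulVec v + v = t • e) :
    ∃ t : k, g * H * g' - H = t • Nmat e := by
  have hg' : g' * g = 1 := mul_eq_one_comm.1 hg
  have hx : x ≠ 0 := by
    rintro rfl
    apply he
    have h3 := Conj_cancel hg' e
    rw [h.line, zero_smul, Matrix.mulVec_zero] at h3
    exact h3.symm
  have hg'e : g'.mulVec e = x⁻¹ • e := by
    have h3 := Conj_cancel hg' e
    rw [h.line, Matrix.mulVec_smul] at h3
    calc g'.mulVec e = x⁻¹ • (x • g'.mulVec e) := by rw [smul_smul, inv_mul_cancel₀ hx, one_smul]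
      _ = x⁻¹ • e := by rw [h3]
  refine exists_eq_smul_Nmat he _ ?_ fun v => ?_
  · rw [Matrix.sub_mulVec, Conj_mulVec, hg'e, Matrix.mulVec_smul, h1, Matrix.mulVec_smul, h.line,
      smul_smul, inv_mul_cancel₀ hx, one_smul, sub_self]
  · obtain ⟨t, ht⟩ := h2 (g'.mulVec v)
    obtain ⟨t', ht'⟩ := h2 v
    have e1 : H.mulVec (g'.mulVec v) = t • e - g'.mulVec v := eq_sub_of_add_eq ht
    have e2 : H.mulVec v = t' • e - v := eq_sub_of_add_eq ht'
    refine ⟨t * x - t', ?_⟩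
    rw [Matrix.sub_mulVec, Conj_mulVec, e1, e2, Matrix.mulVec_sub, Matrix.mulVec_smul, h.line,
      Conj_cancel hg, smul_smul, sub_smul]
    abel

/-- `a H ∈ k N` only for `a = 0`. -/
theorem eq_zero_of_smul_Hmat {e : Fin 2 → k} (he : e ≠ 0) {H : M2 k} (h1 : H.mulVec e = e)
    {a t : k} (h : a • H = t • Nmat e) : a = 0 := by
  have h3 := congrArg (fun M : M2 k => M.mulVec e) h
  simp only [Matrix.smul_mulVec, h1, Nmat_mulVec] at h3
  have h4 : e 0 * e 1 - e 1 * e 0 = 0 := by ring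
  rw [h4, zero_smul, smul_zero] at h3
  exact (smul_eq_zero.1 h3).resolve_right he

end Fermat.Agent.S56.Ord
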