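/-
S56 / ORD, leaf MAT-FLAG.  The computation at one element of the decomposition group:
if `(1 + ε C) g` preserves the line spanned by `e + ε w` with eigenvalue `x ∈ k` and acts on the
quotient by `z ∈ k`, then `C + (g X g⁻¹ - X) ∈ k · Nmat e` for every `X` with `X e ∈ w + k e`.
-/
import Fermat.Agent.S56.Ord.Mat.Nil

set_option autoImplicit false

namespace Fermat.Agent.S56.Ord

open Fermat.Agent.S53 (M2)

variable {k : Type} [Field k]

/-- a matrix with `X e = w`. -/
private theorem Flag_exists_mulVec {e : Fin 2 → k} (he : e ≠ 0) (w : Fin 2 → k) :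
    ∃ X : M2 k, X.mulVec e = w := by
  by_cases h0 : e 0 = 0
  · have h1 : e 1 ≠ 0 := by
      intro h1
      apply he
      funext i
      fin_cases i
      · exact h0
      · exact h1
    refine ⟨!![0, w 0 / e 1; 0, w 1 / e 1], ?_⟩
    funext i
    fin_cases i <;> simp [Matrix.mulVec, dotProduct, Fin.sum_univ_two] <;> field_simp
  · refine ⟨!![w 0 / e 0, 0; w 1 / e 0, 0], ?_⟩
    funext i
    fin_cases i <;> simp [Matrix.mulVec, dotProduct, Fin.sum_univ_two] <;> field_simp

/-- A trace zero matrix with `X e ∈ w + k e`. -/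
theorem exists_trace_zero_mulVec (h2 : (2 : k) ≠ 0) {e : Fin 2 → k} (he : e ≠ 0) (w : Fin 2 → k) :
    ∃ X : M2 k, X.trace = 0 ∧ ∃ u : k, X.mulVec e = w + u • e := by
  obtain ⟨X0, hX0⟩ := Flag_exists_mulVec he w
  refine ⟨X0 - (X0.trace / 2) • (1 : M2 k), ?_, -(X0.trace / 2), ?_⟩
  · rw [Matrix.trace_sub, Matrix.trace_smul, Matrix.trace_one, Fintype.card_fin, smul_eq_mul]
    push_cast
    field_simp
    ring
  · rw [Matrix.sub_mulVec, Matrix.smul_mulVec, Matrix.one_mulVec, hX0, neg_smul, sub_eq_add_neg]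

theorem fil_of_flag {g g' C X : M2 k} (hg : g * g' = 1) {e w : Fin 2 → k} (he : e ≠ 0) {u : k}
    (hX : X.mulVec e = w + u • e) {x z : k} (hx : x ≠ 0)
    (h1 : g.mulVec e = x • e)
    (h2 : g.mulVec w + C.mulVec (g.mulVec e) = x • w)
    (h3 : ∀ v : Fin 2 → k, ∃ t₀ t₁ : k, g.mulVec v - z • v = t₀ • e ∧
      C.mulVec (g.mulVec v) = t₀ • w + t₁ • e) :
    ∃ t : k, C + (g * X * g' - X) = t • Nmat e := by
  have hg' : g' * g = 1 := mul_eq_one_comm.mp hg
  have hexp : ∀ v : Fin 2 → k, (C + (g * X * g' - X)).mulVec v =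
      C.mulVec v + (g.mulVec (X.mulVec (g'.mulVec v)) - X.mulVec v) := by
    intro v
    rw [Matrix.add_mulVec, Matrix.sub_mulVec, ← Matrix.mulVec_mulVec, ← Matrix.mulVec_mulVec]
  apply exists_eq_smul_Nmat he
  · -- `m e = 0`
    have hxe : x • g'.mulVec e = e := by
      have : g'.mulVec (g.mulVec e) = e := by rw [Matrix.mulVec_mulVec, hg', Matrix.one_mulVec]
      rwa [h1, Matrix.mulVec_smul] at this
    have hC : x • C.mulVec e = x • w - g.mulVec w := by
      rw [h1, Matrix.mulVec_smul] at h2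
      exact eq_sub_of_add_eq' h2
    have hgX : x • g.mulVec (X.mulVec (g'.mulVec e)) = g.mulVec w + (u * x) • e := by
      rw [← Matrix.mulVec_smul, ← Matrix.mulVec_smul, hxe, hX, Matrix.mulVec_add,
        Matrix.mulVec_smul, h1, smul_smul]
    have hz : x • (C + (g * X * g' - X)).mulVec e = 0 := by
      rw [hexp, smul_add, smul_sub, hC, hgX, hX]
      module
    exact (smul_eq_zero.mp hz).resolve_left hx
  · intro v'
    obtain ⟨t₀, t₁, ha, hb⟩ := h3 (g'.mulVec v')
    obtain ⟨s₀, -, hc, -⟩ := h3 (X.mulVec (g'.mulVec v'))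
    have hgv : g.mulVec (g'.mulVec v') = v' := by rw [Matrix.mulVec_mulVec, hg, Matrix.one_mulVec]
    rw [hgv] at ha hb
    have hv' : v' = z • g'.mulVec v' + t₀ • e := by rw [← ha]; abel
    have hXv : X.mulVec v' = z • X.mulVec (g'.mulVec v') + t₀ • (w + u • e) := by
      conv_lhs => rw [hv']
      rw [Matrix.mulVec_add, Matrix.mulVec_smul, Matrix.mulVec_smul, hX]
    have hgXv : g.mulVec (X.mulVec (g'.mulVec v')) = z • X.mulVec (g'.mulVec v') + s₀ • e := by
      rw [← hc]; abel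
    refine ⟨t₁ + s₀ - t₀ * u, ?_⟩
    rw [hexp, hb, hgXv, hXv]
    module

end Fermat.Agent.S56.Ord
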