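/-
S56 / ORD, leaf MAT-UNIQ.  The strict ordinary line is unique, because inertia acts on it through
the (nontrivial) cyclotomic character and trivially on the quotient.
-/
import Fermat.Agent.S56.Ord.Defs
import Fermat.Agent.Lib.InertiaField.Defs

set_option autoImplicit false

namespace Fermat.Agent.S56.Ord

open Fermat.Agent.S53 (M2 Gal)

variable {k : Type} [Field k]

theorem IsOrdLine.unique {p : ℕ} {P : ValuationSubring (AlgebraicClosure ℚ)} {s : Gal →* M2 k}
    {e e' : Fin 2 → k} (h : IsOrdLine p P s e) (h' : IsOrdLine p P s e')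
    {τ : Gal} (hτ : τ ∈ P.inertiaSubgroupIn ℚ) {a : ℕ} (ha : ActsPow p τ a) (ha1 : (a : k) ≠ 1) :
    ∃ c : k, e' = c • e := by
  have hτD : τ ∈ P.decompositionSubgroup ℚ :=
    Fermat.Agent.Lib.InertiaField.inertia_le_decomposition P hτ
  obtain ⟨z', -, hflag⟩ := h'.dec τ hτD a ha
  -- every vector times `z' - 1` is a multiple of `e'`
  have hmul : ∀ v : Fin 2 → k, ∃ t : k, (z' - 1) • v = t • e' := by
    intro v
    obtain ⟨t1, h1⟩ := h'.iner τ hτ v
    obtain ⟨t2, h2⟩ := hflag.quot v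
    refine ⟨t1 - t2, ?_⟩
    rw [sub_smul, sub_smul, one_smul, ← h1, ← h2]
    abel
  have hz : z' = 1 := by
    by_contra hne
    have hne' : z' - 1 ≠ 0 := sub_ne_zero.2 hne
    obtain ⟨c1, hc1⟩ := hmul ![1, 0]
    obtain ⟨c2, hc2⟩ := hmul ![0, 1]
    have a0 := congrFun hc1 0
    have a1 := congrFun hc1 1
    have b1 := congrFun hc2 1
    simp only [Pi.smul_apply, smul_eq_mul, Matrix.cons_val_zero, Matrix.cons_val_one, mul_one,
      mul_zero] at a0 a1 b1
    have hc1ne : c1 ≠ 0 := by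
      rintro rfl
      rw [zero_mul] at a0
      exact hne' a0
    have he1 : e' 1 = 0 := by
      rcases mul_eq_zero.1 a1.symm with h0 | h0
      · exact absurd h0 hc1ne
      · exact h0
    rw [he1, mul_zero] at b1
    exact hne' b1
  have hline : (s τ).mulVec e' = (a : k) • e' := by
    rw [hflag.line, hz, mul_one]
  obtain ⟨t, ht⟩ := h.iner τ hτ e'
  have ha1' : (a : k) - 1 ≠ 0 := sub_ne_zero.2 ha1
  refine ⟨((a : k) - 1)⁻¹ * t, ?_⟩
  rw [mul_smul, ← ht, hline]
  have : (a : k) • e' - e' = ((a : k) - 1) • e' := by rw [sub_smul, one_smul]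
  rw [this, smul_smul, inv_mul_cancel₀ ha1', one_smul]

end Fermat.Agent.S56.Ord
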